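import Fermat.Agent.S43.Tan.Rep
import Fermat.Agent.S43.Exact.GMA

/-!
# S43 / Selp / Main : the hypothesis `hprop` of `Tan.tan_ideal` / `Tan.tan_module` / `Tan.master_ker`

Abstract form, in the language of `Exact.gma_main`: `rW : G →* End_A(W)` the Galois action on the (base changed) module `W`,
`ρ : G →* M₂(A)` the matrix representation produced by `gma_main` (only `rW g = rW g' → ρ g = ρ g'` and `det ρ = ε` are used).

* `hprop_of_gma`  : `SelProps` for all infinitesimal lifts `φ ∘ ρ`, from: `rW` trivial on an open subgroup, trivial on the inertia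
  groups outside `S'`, `ε` with values in `k`, `tr ρ = 2` on inertia at `Sram`, flatness of the lifts (block FLATB).
* `hprop_of_gma'` : the case `Sram = ∅` (nothing at `2`, `GWS.tw_strict_full`).
-/

set_option autoImplicit false

open Matrix

noncomputable section

namespace Fermat.Agent.S43.Selp

open Fermat.Agent.S53 (G M2)
open Fermat.Agent.S56
open Fermat.Agent.S56.C (rm liftMat)
open Fermat.Agent.S43.Tan

variable {k : Type} [Field k] {A : Type} [CommRing A] [Algebra k A]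
  {W : Type*} [AddCommGroup W] [Module A W]

theorem rho_eq_one {rW : G →* Module.End A W} {ρ : G →* M2 A}
    (hρ : ∀ g g', rW g = rW g' → ρ g = ρ g') {σ : G} (h : rW σ = 1) : ρ σ = 1 := by
  rw [← map_one ρ]
  exact hρ σ 1 (by rw [h, map_one])

theorem hprop_of_gma (p : ℕ) (r : G →* GL (Fin 2) k) (rW : G →* Module.End A W) (ρ : G →* M2 A)
    (hρ : ∀ g g', rW g = rW g' → ρ g = ρ g')
    (ε : G →* Aˣ) (hdet : ∀ g, (ρ g).det = ε g) (hε : ∀ g, ∃ u : k, (ε g : A) = algebraMap k A u)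
    (S' Sram : Finset ℕ)
    (hsm : ∃ L : IntermediateField ℚ (AlgebraicClosure ℚ), FiniteDimensional ℚ L ∧
      ∀ σ : G, (∀ x ∈ L, σ x = x) → rW σ = 1)
    (hunr : ∀ q : ℕ, q.Prime → q ∉ S' → ∀ P : ValuationSubring (AlgebraicClosure ℚ),
      P.LiesOverPrime q → ∀ σ ∈ P.inertiaSubgroupIn ℚ, rW σ = 1)
    (hunip : ∀ q ∈ Sram, q.Prime → q ≠ p → ∀ P : ValuationSubring (AlgebraicClosure ℚ),
      P.LiesOverPrime q → ∀ σ ∈ P.inertiaSubgroupIn ℚ, (ρ σ).trace = 2)
    (hflat : ∀ (φ : A →ₐ[k] DualNumber k) (c : G → M2 k), Function.Surjective φ →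
      (∀ σ, (ρ σ).map φ = liftMat r c σ) → C.FlatAt r c p) :
    ∀ (φ : A →ₐ[k] DualNumber k) (c : G → M2 k), Function.Surjective φ →
      (∀ σ, (ρ σ).map φ = liftMat r c σ) → SelProps r c p S' Sram := by
  intro φ c hs hc
  obtain ⟨L, hL, hL'⟩ := hsm
  exact selProps_of_fun r (fun σ => ρ σ) S' Sram (fun σ τ => map_mul ρ σ τ)
    ⟨L, hL, fun σ hσ => rho_eq_one hρ (hL' σ hσ)⟩
    (fun σ => by
      obtain ⟨u, hu⟩ := hε σ
      exact ⟨u, by rw [hdet, hu]⟩)
    (fun q hq hqS P hP σ hσ => rho_eq_one hρ (hunr q hq hqS P hP σ hσ))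
    hunip φ c (hflat φ c hs hc) hc

theorem hprop_of_gma' (p : ℕ) (r : G →* GL (Fin 2) k) (rW : G →* Module.End A W) (ρ : G →* M2 A)
    (hρ : ∀ g g', rW g = rW g' → ρ g = ρ g')
    (ε : G →* Aˣ) (hdet : ∀ g, (ρ g).det = ε g) (hε : ∀ g, ∃ u : k, (ε g : A) = algebraMap k A u)
    (S' : Finset ℕ)
    (hsm : ∃ L : IntermediateField ℚ (AlgebraicClosure ℚ), FiniteDimensional ℚ L ∧
      ∀ σ : G, (∀ x ∈ L, σ x = x) → rW σ = 1)
    (hunr : ∀ q : ℕ, q.Prime → q ∉ S' → ∀ P : ValuationSubring (AlgebraicClosure ℚ),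
      P.LiesOverPrime q → ∀ σ ∈ P.inertiaSubgroupIn ℚ, rW σ = 1)
    (hflat : ∀ (φ : A →ₐ[k] DualNumber k) (c : G → M2 k), Function.Surjective φ →
      (∀ σ, (ρ σ).map φ = liftMat r c σ) → C.FlatAt r c p) :
    ∀ (φ : A →ₐ[k] DualNumber k) (c : G → M2 k), Function.Surjective φ →
      (∀ σ, (ρ σ).map φ = liftMat r c σ) → SelProps r c p S' ∅ :=
  hprop_of_gma p r rW ρ hρ ε hdet hε S' ∅ hsm hunr (fun q hq => absurd hq (Finset.notMem_empty q))
    hflat

end Fermat.Agent.S43.Selp
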